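/-
S29 row, sub-layer M4b, PIECE `K4-ADD` (helper809): additivity of the Kummer relation.
Exact statement of `origin/helper822 : Fermat/Agent/S29/M4b/Skeleton.lean` (`isKum_add`).
Imports only `M4b.Defs` (on main).  Namespace `Fermat.Agent.S29.H809`.
-/
import Fermat.Agent.S29.M4b.Defs
import Fermat.Agent.S29.H882.GoodQ
import Fermat.Agent.S24.H624.HoloRing

set_option autoImplicit false

noncomputable section

open ModularCurve AlgebraicCurve CongruenceSubgroup UpperHalfPlane
open scoped MatrixGroups Manifold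

namespace Fermat.Agent.S29.H809

open Fermat.Agent.S24 Fermat.Agent.S29 Fermat.Agent.S29.M4b

/-- `zetaP p` is a `p`-th root of unity (`p ≠ 0`). -/
theorem zetaP_pow_self (p : ℕ) [NeZero p] : zetaP p ^ p = 1 := by
  unfold zetaP
  rw [← Complex.exp_nat_mul]
  have hp : (p : ℂ) ≠ 0 := Nat.cast_ne_zero.mpr (NeZero.ne p)
  have : (p : ℂ) * (2 * Real.pi * Complex.I / p) = 2 * Real.pi * Complex.I := by
    field_simp
  rw [this, Complex.exp_two_pi_mul_I]

/-- `zetaP p ^ n` only depends on `n` modulo `p`. -/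
theorem zetaP_pow_mod (p : ℕ) [NeZero p] (n : ℕ) : zetaP p ^ (n % p) = zetaP p ^ n := by
  conv_rhs => rw [← Nat.div_add_mod n p]
  rw [pow_add, pow_mul, zetaP_pow_self, one_pow, one_mul]

/-- `ζ ^ (a + b).val = ζ ^ a.val * ζ ^ b.val` for `a b : ZMod p`. -/
theorem zetaP_pow_val_add (p : ℕ) [NeZero p] (a b : ZMod p) :
    zetaP p ^ (a + b).val = zetaP p ^ a.val * zetaP p ^ b.val := by
  rw [ZMod.val_add, zetaP_pow_mod, pow_add]

/-- Products of twisted functions are twisted, of the sum of the characters. -/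
theorem IsTwisted_mul {N p : ℕ} [NeZero p] {c c' : G0 N → ZMod p} {U U' : ℍ → ℂ}
    (hU : IsTwisted N p c U) (hU' : IsTwisted N p c' U') :
    IsTwisted N p (c + c') (fun τ => U τ * U' τ) where
  mdiff := hU.mdiff.mul hU'.mdiff
  ne_zero := by
    by_contra hcon
    simp only [not_exists, not_not] at hcon
    have h0 : U * U' = 0 := by
      funext τ
      exact hcon τ
    rcases H624.mul_eq_zero_of_mdiff hU.mdiff hU'.mdiff h0 with h | h
    · obtain ⟨τ, hτ⟩ := hU.ne_zero
      exact hτ (by rw [h]; rfl)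
    · obtain ⟨τ, hτ⟩ := hU'.ne_zero
      exact hτ (by rw [h]; rfl)
  hasChar := by
    intro γ τ
    show U ((γ : SL(2, ℤ)) • τ) * U' ((γ : SL(2, ℤ)) • τ) = _
    rw [hU.hasChar γ τ, hU'.hasChar γ τ, Pi.add_apply, zetaP_pow_val_add]
    ring
  pow_mem := by
    have h : (fun τ => (U τ * U' τ) ^ p) = (fun τ => U τ ^ p) * (fun τ => U' τ ^ p) := by
      funext τ
      simp [mul_pow]
    rw [h]
    exact (H648.goodRing N).mul_mem hU.pow_mem hU'.pow_mem

/-- Products of realisations are realisations of the product. -/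
theorem Realises_mul {N : ℕ} [NeZero N] {u u' : FF N} {G G' : ℍ → ℂ}
    (h : Realises N u G) (h' : Realises N u' G') : Realises N (u * u') (G * G') := by
  refine ⟨(H648.goodRing N).mul_mem h.1 h'.1, ?_⟩
  rw [H708.qexpFun_mul (H882.isMerInf_of_mem_goodRing h.1) (H882.isMerInf_of_mem_goodRing h'.1),
    h.2, h'.2]
  simp

/-- PIECE `K4-ADD`: additivity (product of the data). -/
theorem isKum_add (N : ℕ) [NeZero N] (p : ℕ) [NeZero p] {c c' : G0 N → ZMod p} {x x' : JZero N}
    (h : IsKum N p c x) (h' : IsKum N p c' x') : IsKum N p (c + c') (x + x') := by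
  obtain ⟨f, t, U, ht, hx, hU, hR⟩ := h
  obtain ⟨f', t', U', ht', hx', hU', hR'⟩ := h'
  refine ⟨f * f', t * t', fun τ => U τ * U' τ, mul_ne_zero ht ht', hx.add hx',
    IsTwisted_mul hU hU', ?_⟩
  have h1 := Realises_mul hR hR'
  have e1 : f * f' * (t * t') ^ p = f * t ^ p * (f' * t' ^ p) := by ring
  have e2 : (fun τ => (U τ * U' τ) ^ p) = (fun τ => U τ ^ p) * (fun τ => U' τ ^ p) := by
    funext τ
    simp [mul_pow]
  rw [e1, e2]
  exact h1

end Fermat.Agent.S29.H809
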