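/-
S29 row, sub-layer M4b, PIECE `K4-UNIQ` (helper809): the Kummer class of a character is unique.
Exact statement of `origin/helper822 : Fermat/Agent/S29/M4b/Skeleton.lean` (`isKum_unique`).

Proof.  By additivity (`K4-ADD`, `isKum_add`) the class `x + (p-1) x'` is a Kummer class of the
character `c + (p-1) c = 0`, so it suffices to show the kernel statement
`IsKum N p 0 y → y = 0`.  There `U` is `Γ₀(N)`-invariant and of exponential growth (as `U ^ p` is),
hence good; by MERO (`H882.qexpFun_mem_FC`) its `q`-expansion `X` lies in the function field over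
`ℂ`.  As `X ^ p` has coefficients in `ℚ̄`, every `Aut(ℂ/ℚ̄)`-conjugate of `X` is one of the
finitely many `p`-th roots of `X ^ p`, so all coefficients of `X` have finite orbits and lie in
`ℚ̄` (`H32.mem_range_of_finite_orbit`).  By descent of coefficients (`H882` (C)) `X` comes from
`v ∈ FF N`, `v ^ p = f * t ^ p`, so `f` is a `p`-th power and `y = 0`.
-/
import Fermat.Agent.S29.M4b.Defs
import Fermat.Agent.S29.H809.K4Add
import Fermat.Agent.S29.H32.AutOrbit
import Fermat.Agent.S29.H751.Echelon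
import Fermat.Agent.S29.H882.Inter

set_option autoImplicit false

noncomputable section

open ModularCurve AlgebraicCurve CongruenceSubgroup UpperHalfPlane
open scoped MatrixGroups Manifold

namespace Fermat.Agent.S29.H809

open Fermat.Agent.S24 Fermat.Agent.S29 Fermat.Agent.S29.M4b
open Fermat.Agent.S24.H648 Fermat.Agent.S24.H708 Fermat.Agent.S24.Deg457

/-- A function whose `p`-th power has at most exponential growth has at most exponential
growth. -/
theorem K4Uniq_expGrowth_of_pow {f : ℍ → ℂ} {p : ℕ} (hp : p ≠ 0)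
    (h : ExpGrowth (fun τ => f τ ^ p)) : ExpGrowth f := by
  obtain ⟨C, m, hC⟩ := h
  refine ⟨max C 1, m, fun τ hτ => ?_⟩
  have h1 := hC τ hτ
  rw [norm_pow] at h1
  set E := Real.exp (2 * Real.pi * m * τ.im) with hE
  have hE0 : 0 ≤ E := (Real.exp_pos _).le
  have hE1 : 1 ≤ E := by
    rw [hE]
    apply Real.one_le_exp
    have := τ.im_pos
    have := Real.pi_pos
    positivity
  have hM1 : (1 : ℝ) ≤ max C 1 := le_max_right _ _
  have hB1 : 1 ≤ max C 1 * E := by
    calc (1 : ℝ) = 1 * 1 := by ring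
      _ ≤ max C 1 * E := mul_le_mul hM1 hE1 zero_le_one (by positivity)
  have h2 : ‖f τ‖ ^ p ≤ (max C 1 * E) ^ p := by
    calc ‖f τ‖ ^ p ≤ C * E := h1
      _ ≤ max C 1 * E := mul_le_mul_of_nonneg_right (le_max_left _ _) hE0
      _ ≤ (max C 1 * E) ^ p := le_self_pow₀ hB1 hp
  exact (pow_le_pow_iff_left₀ (norm_nonneg _) (by positivity) hp).mp h2

/-- A twisted function of trivial character is good. -/
theorem K4Uniq_mem_goodRing {N p : ℕ} [NeZero p] {U : ℍ → ℂ}
    (hU : IsTwisted N p (0 : G0 N → ZMod p) U) : U ∈ goodRing N := by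
  refine ⟨hU.mdiff, fun γ hγ τ => ?_, fun g => ?_⟩
  · have := hU.hasChar ⟨γ, hγ⟩ τ
    simpa using this
  · exact K4Uniq_expGrowth_of_pow (NeZero.ne p) (hU.pow_mem.2.2 g)

/-- In a field, an element has only finitely many `p`-th roots. -/
theorem K4Uniq_finite_pow_eq {F : Type*} [Field F] {p : ℕ} (hp : p ≠ 0) (a : F) :
    {Y : F | Y ^ p = a}.Finite := by
  classical
  refine (Polynomial.nthRoots p a).toFinset.finite_toSet.subset ?_
  intro Y hY
  simp only [Finset.mem_coe, Multiset.mem_toFinset]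
  exact (Polynomial.mem_nthRoots (Nat.pos_of_ne_zero hp)).mpr hY

/-- **`p`-th root descent of coefficients.**  A complex Laurent series whose `p`-th power has
coefficients in `ℚ̄` has coefficients in `ℚ̄`. -/
theorem K4Uniq_exists_coeffMap_eq {p : ℕ} (hp : p ≠ 0) {X : LaurentSeries ℂ}
    {w : LaurentSeries Kbar} (hX : X ^ p = coeffMap iotaC w) :
    ∃ v : LaurentSeries Kbar, coeffMap iotaC v = X := by
  let _ : Algebra Kbar ℂ := iotaC.toAlgebra
  have hfin : {Y : LaurentSeries ℂ | Y ^ p = X ^ p}.Finite := K4Uniq_finite_pow_eq hp _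
  have hcoeff : ∀ n, X.coeff n ∈ Set.range (algebraMap Kbar ℂ) := by
    intro n
    apply H32.mem_range_of_finite_orbit
    refine (hfin.image (fun Y : LaurentSeries ℂ => Y.coeff n)).subset ?_
    rintro _ ⟨σ, rfl⟩
    refine ⟨coeffMap (σ : ℂ →+* ℂ) X, ?_, ?_⟩
    · show (coeffMap (σ : ℂ →+* ℂ) X) ^ p = X ^ p
      rw [← map_pow, hX, coeffMap_coeffMap]
      exact coeffMap_congr (RingHom.ext fun c => σ.commutes c) w
    · rfl
  obtain ⟨v, hv⟩ := H751.exists_laurent_of_coeff_mem_range (K := Kbar) X hcoeff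
  exact ⟨v, hv⟩

/-- `coeffMap iotaC` is injective. -/
theorem K4Uniq_coeffMap_injective : Function.Injective (coeffMap iotaC) := by
  intro x y h
  ext n
  have := congrArg (fun z : LaurentSeries ℂ => z.coeff n) h
  simp only [coeffMap_coeff] at this
  exact iotaC.injective this

/-- **Kernel statement**: the Kummer class of the trivial character is `0`. -/
theorem isKum_zero_left (N : ℕ) [NeZero N] (p : ℕ) [NeZero p] {y : JZero N}
    (h : IsKum N p (0 : G0 N → ZMod p) y) : y = 0 := by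
  obtain ⟨f, t, U, ht, hy, hU, hG, hq⟩ := h
  have hp : p ≠ 0 := NeZero.ne p
  have hp0 : (p : ℤ) ≠ 0 := by exact_mod_cast hp
  have hUg : U ∈ goodRing N := K4Uniq_mem_goodRing hU
  have hXU : HasQExp 1 U (qexpFun 1 U) := H882.hasQExp_of_mem_goodRing hUg
  have hXp : HasQExp 1 (fun τ => U τ ^ p) (qexpFun 1 (fun τ => U τ ^ p)) :=
    H882.hasQExp_of_mem_goodRing hG
  have hpow : qexpFun 1 U ^ p = coeffMap iotaC (((f * t ^ p : FF N)) : LaurentSeries Kbar) := by
    rw [← hq]
    exact (hXU.pow p).unique hXp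
  obtain ⟨v, hv⟩ := K4Uniq_exists_coeffMap_eq hp hpow
  have hvmem : v ∈ laurentBaseChange Kbar (modularFunctionFieldFull N) := by
    apply H882.mem_laurentBaseChange_of_coeffMap_mem iotaC
    rw [hv]
    exact H882.qexpFun_mem_FC hUg
  set v' : FF N := ⟨v, hvmem⟩ with hv'
  have hvp : v' ^ p = f * t ^ p := by
    apply Subtype.ext
    apply K4Uniq_coeffMap_injective
    rw [← hpow, ← hv]
    simp [hv']
  have hf : f ≠ 0 := hy.ne_zero
  have htp : t ^ p ≠ 0 := pow_ne_zero p ht
  have hv0 : v' ≠ 0 := by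
    intro h0
    rw [h0, zero_pow hp] at hvp
    exact mul_ne_zero hf htp hvp.symm
  have hg0 : v' * t⁻¹ ≠ 0 := mul_ne_zero hv0 (inv_ne_zero ht)
  have hfg : f = (v' * t⁻¹) ^ p := by
    rw [mul_pow, hvp, inv_pow, mul_assoc, mul_inv_cancel₀ htp, mul_one]
  refine (H455.IsKummerClass.eq_zero_iff hp0 hy).mpr ⟨v' * t⁻¹, hg0, fun P => ?_⟩
  have h1 : P.ord ((v' * t⁻¹) ^ p) = (p : ℤ) * P.ord (v' * t⁻¹) := by
    have := Place.ord_zpow P (v' * t⁻¹) (p : ℤ)
    rwa [zpow_natCast] at this
  rw [← h1, ← hfg]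

/-- Auxiliary induction: `x + n x'` is a Kummer class of `(n + 1) c`. -/
theorem K4Uniq_isKum_add_nsmul (N : ℕ) [NeZero N] (p : ℕ) [NeZero p] {c : G0 N → ZMod p}
    {x x' : JZero N} (h : IsKum N p c x) (h' : IsKum N p c x') :
    ∀ n : ℕ, IsKum N p ((n + 1) • c) (x + n • x')
  | 0 => by simpa using h
  | n + 1 => by
    have ih := K4Uniq_isKum_add_nsmul N p h h' n
    have e1 : (n + 1 + 1) • c = (n + 1) • c + c := succ_nsmul c (n + 1)
    have e2 : x + (n + 1) • x' = (x + n • x') + x' := by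
      rw [succ_nsmul, add_assoc]
    rw [e1, e2]
    exact isKum_add N p ih h'

/-- PIECE `K4-UNIQ`: the Kummer class of a character is unique. -/
theorem isKum_unique (N : ℕ) [NeZero N] (p : ℕ) [NeZero p] {c : G0 N → ZMod p} {x x' : JZero N}
    (h : IsKum N p c x) (h' : IsKum N p c x') : x = x' := by
  have hp : p ≠ 0 := NeZero.ne p
  have hx' : (p : ℤ) • x' = 0 := by
    obtain ⟨f', t', U', -, hx', -, -⟩ := h'
    exact hx'.zsmul_eq_zero
  have hx'n : p • x' = 0 := by
    rw [← natCast_zsmul]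
    exact hx'
  have hk := K4Uniq_isKum_add_nsmul N p h h' (p - 1)
  have hp1 : p - 1 + 1 = p := Nat.sub_add_cancel (Nat.one_le_iff_ne_zero.mpr hp)
  have hc0 : (p - 1 + 1) • c = 0 := by
    rw [hp1]
    funext γ
    simp
  rw [hc0] at hk
  have h0 : x + (p - 1) • x' = 0 := isKum_zero_left N p hk
  have h1 : x' + (p - 1) • x' = 0 := by
    rw [add_comm, ← succ_nsmul, hp1]
    exact hx'n
  exact add_right_cancel (h0.trans h1.symm)

end Fermat.Agent.S29.H809
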